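import Fermat.Agent.S33.H270.KeyCore
import Fermat.Agent.S33.H706.Old
import Fermat.Agent.Ribet.H944.WallSpec
import Fermat.Agent.S59.H659.Cyclo

/-!
# S33, piece KEY at the level of `J₀(pM')`  — helper270

Architecture: `origin/helper409:coord/S33-helper409.md`, section 3.

Vocabulary already on main:
* `S33.H706.augTors p J P n` = `I_aug (J[pⁿ])`, `S33.H706.augSub P Y` = `I_aug Y`,
  `S33.H706.OldAugJZero` = (OLD)  (helper706, from the frozen S19);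
* `Ribet.H944.Wall.IsDegPair`, `Ribet.H944.Wall.CycloAt`  (helper944, W-DEG and `χ`).

Here:
* `OrdFilStatement` : (NEW) = W-DEG + (S1⁺) + (S2), the exact input expected from the wall at `p`;
* `KeyStatement`    : (K) every `G_ℚ`-stable `Y ≤ ⋃ₙ I_aug (J[pⁿ]) ∩ J[p]`, `J = J₀(pM')`,
  is its own inertia augmentation;
* `keyStatement_of : OrdFilStatement → OldAugJZero → KeyStatement`  (PROVED; DETI = total ramification of
  `ℚ(ζ_p)` at `p` is taken from `S59.H659.exists_inertia_cycExp_ne_one`);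
* `key_at_level` : the same at a level `N` with `p ∣ N`, `¬ p² ∣ N`.
-/

set_option autoImplicit false
set_option linter.style.haveILetI false

namespace Fermat.Agent.S33.H270

open ModularCurve Fermat.Agent.Ribet.Spec Fermat.Agent.Ribet.H944.Wall Fermat.Agent.S33.H706

/-- **(NEW)** = W-DEG + (S1⁺) + (S2): the package expected from the wall at `p`
(RIBET `AtPFiltrationStatement` with (S1) stated for all `p`-power torsion, without (S3), (S4)). -/
def OrdFilStatement : Prop :=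
  ∀ (p M' : ℕ) [NeZero M'] [NeZero (p * M')], p.Prime → p ≠ 2 → ¬ p ∣ M' →
    ∃ (S₀ : Finset ℕ) (α β : JZero (p * M') →+ JZero M'), IsDegPair p M' S₀ α β ∧
    ∀ A : ValuationSubring (AlgebraicClosure ℚ), A.LiesOverPrime p →
    ∃ 𝒮 : AddSubgroup (JZero (p * M')),
      -- (S1⁺) `I_aug (J[pⁿ]) ∩ J[p] ⊆ 𝒮`
      (∀ x : JZero (p * M'), p • x = 0 →
        ∀ n : ℕ, x ∈ augTors p (JZero (p * M')) A n → x ∈ 𝒮) ∧
      -- (S2) inertia acts through `χ` on the new part of `𝒮`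
      (∀ x ∈ 𝒮, p • x = 0 → α x = 0 → β x = 0 →
        ∀ σ ∈ A.inertiaSubgroupIn ℚ, ∀ c : ℕ, CycloAt p σ c → σ • x = c • x)

/-- **(K)** at level `p M'`. -/
def KeyStatement : Prop :=
  ∀ (p M' : ℕ) [NeZero M'] [NeZero (p * M')], p.Prime → p ≠ 2 → ¬ p ∣ M' →
    ∀ P : ValuationSubring (AlgebraicClosure ℚ), P.LiesOverPrime p →
    ∀ Y : AddSubgroup (JZero (p * M')), (∀ (σ : GQ), ∀ y ∈ Y, σ • y ∈ Y) →
      (∀ y ∈ Y, p • y = 0) →
      (∀ y ∈ Y, ∃ n : ℕ, y ∈ augTors p (JZero (p * M')) P n) →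
      augSub P Y = Y

/-- An equivariant additive map sends `I_aug (J[pⁿ])` into `I_aug (J'[pⁿ])`. -/
theorem map_mem_augTors {p : ℕ} {J J' : Type} [AddCommGroup J] [AddCommGroup J']
    [DistribMulAction GQ J] [DistribMulAction GQ J'] (f : J →+ J')
    (hf : ∀ (σ : GQ) (x : J), f (σ • x) = σ • f x)
    (P : ValuationSubring (AlgebraicClosure ℚ)) (n : ℕ) {x : J}
    (hx : x ∈ augTors p J P n) : f x ∈ augTors p J' P n := by
  unfold augTors at hx
  induction hx using AddSubgroup.closure_induction with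
  | mem z hz =>
    obtain ⟨σ, hσ, w, hw, rfl⟩ := hz
    refine AddSubgroup.subset_closure ⟨σ, hσ, f w, ?_, ?_⟩
    · rw [← map_zsmul, hw, map_zero]
    · rw [map_sub, hf]
  | zero => rw [map_zero]; exact AddSubgroup.zero_mem _
  | add a b _ _ ha hb => rw [map_add]; exact AddSubgroup.add_mem _ ha hb
  | neg a _ ha => rw [map_neg]; exact AddSubgroup.neg_mem _ ha

/-- `augSub` is the abstract augmentation subgroup of `KeyCore`. -/
theorem augSub_eq_iAug {J : Type} [AddCommGroup J] [DistribMulAction GQ J]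
    (P : ValuationSubring (AlgebraicClosure ℚ)) (Y : AddSubgroup J) :
    augSub P Y = iAug (P.inertiaSubgroupIn ℚ) Y := rfl

/-- DETI in the form used by `KeyCore`: some `σ₀ ∈ I_P` acts on `μ_p` through an exponent `c₀`
with `d * c₀ ≡ d + 1 mod p` for some `d`. -/
theorem exists_inertia_scalar {p : ℕ} (hp : p.Prime) (hp2 : p ≠ 2)
    (P : ValuationSubring (AlgebraicClosure ℚ)) (hP : P.LiesOverPrime p) :
    ∃ σ₀ ∈ P.inertiaSubgroupIn ℚ, ∃ c₀ d : ℕ, CycloAt p σ₀ c₀ ∧ d * c₀ ≡ d + 1 [MOD p] := by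
  obtain ⟨σ₀, hσ₀, hne⟩ := Fermat.Agent.S59.H659.exists_inertia_cycExp_ne_one p hp hp2 P hP
  obtain ⟨c₀, hc₀⟩ := Fermat.Agent.S59.H659.exists_isCycExp p hp.ne_zero σ₀
  have hc1 : ¬ c₀ ≡ 1 [MOD p] := hne c₀ hc₀
  haveI : Fact p.Prime := ⟨hp⟩
  -- invert `c₀ - 1` in `ZMod p`
  have hu : ((c₀ : ZMod p) - 1) ≠ 0 := by
    intro h
    apply hc1
    rw [← ZMod.natCast_eq_natCast_iff]
    rw [sub_eq_zero] at h
    rw [h, Nat.cast_one]
  refine ⟨σ₀, hσ₀, c₀, (((c₀ : ZMod p) - 1)⁻¹).val, hc₀, ?_⟩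
  rw [← ZMod.natCast_eq_natCast_iff]
  push_cast
  rw [ZMod.natCast_zmod_val]
  have h1 : ((c₀ : ZMod p) - 1)⁻¹ * ((c₀ : ZMod p) - 1) = 1 := inv_mul_cancel₀ hu
  linear_combination h1

/-- **KEY.**  (K) from (NEW) and (OLD). -/
theorem keyStatement_of (hNEW : OrdFilStatement) (hOLD : OldAugJZero) : KeyStatement := by
  intro p M' _ _ hp hp2 hpM' P hP Y hYG hpY hYaug
  haveI : Fact p.Prime := ⟨hp⟩
  obtain ⟨S₀, α, β, hdeg, hfil⟩ := hNEW p M' hp hp2 hpM'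
  obtain ⟨𝒮, hS1, hS2⟩ := hfil P hP
  obtain ⟨σ₀, hσ₀, c₀, d, hc₀, hcd⟩ := exists_inertia_scalar hp hp2 P hP
  refine le_antisymm (augSub_le P Y hYG) ?_
  rw [augSub_eq_iAug]
  refine key_of_pred (I := P.inertiaSubgroupIn ℚ) (p := p) α β hdeg.galois_left
    hdeg.galois_right hσ₀ hcd
    (fun x => p • x = 0 ∧ ∃ n : ℕ, x ∈ augTors p (JZero (p * M')) P n)
    (fun x => p • x = 0 ∧ ∃ n : ℕ, x ∈ augTors p (JZero M') P n)
    (fun _ hx => hx.1) ?_ ?_ (𝒮 : Set (JZero (p * M'))) ?_ ?_ ?_ Y hYG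
    (fun y hy => ⟨hpY y hy, hYaug y hy⟩)
  · rintro x ⟨hpx, n, hn⟩
    exact ⟨by rw [← map_nsmul, hpx, map_zero], n,
      map_mem_augTors α hdeg.galois_left P n hn⟩
  · rintro x ⟨hpx, n, hn⟩
    exact ⟨by rw [← map_nsmul, hpx, map_zero], n,
      map_mem_augTors β hdeg.galois_right P n hn⟩
  · rintro x ⟨hpx, n, hn⟩
    exact hS1 x hpx n hn
  · intro x hx hpx hαx hβx
    exact hS2 x hx hpx hαx hβx σ₀ hσ₀ c₀ hc₀
  · intro Y' hY'G hY'
    have h := hOLD p hp2 M' hpM' P hP Y' hY'G (fun y hy => (hY' y hy).1)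
      (fun y hy => (hY' y hy).2)
    rw [augSub_eq_iAug] at h
    exact h.ge

/-- **(K) at a level `N` exactly divisible by `p`.** -/
theorem key_at_level (hK : KeyStatement) {p : ℕ} (hp : p.Prime) (hp2 : p ≠ 2)
    (N : ℕ) [NeZero N] (hN : p ∣ N) (hN2 : ¬ p ^ 2 ∣ N)
    (P : ValuationSubring (AlgebraicClosure ℚ)) (hP : P.LiesOverPrime p)
    (Y : AddSubgroup (JZero N)) (hYG : ∀ (σ : GQ), ∀ y ∈ Y, σ • y ∈ Y)
    (hpY : ∀ y ∈ Y, p • y = 0)
    (hYaug : ∀ y ∈ Y, ∃ n : ℕ, y ∈ augTors p (JZero N) P n) :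
    augSub P Y = Y := by
  obtain ⟨M', rfl⟩ := hN
  have hM' : M' ≠ 0 := by
    rintro rfl
    exact NeZero.ne (p * 0) (mul_zero p)
  haveI : NeZero M' := ⟨hM'⟩
  have hpM' : ¬ p ∣ M' := by
    rintro ⟨k, rfl⟩
    exact hN2 ⟨k, by ring⟩
  exact hK p M' hp hp2 hpM' P hP Y hYG hpY hYaug

end Fermat.Agent.S33.H270
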