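import Mathlib

/-!
# S33, piece KEY (abstract core)  — helper270

Abstract dévissage behind `(K)` of `coord/S33-helper409.md`, Mathlib only.

`G` a group, `I ≤ G` a subgroup ("inertia"), `J`, `J'` abelian groups with `G`-action,
`α β : J →+ J'` equivariant.  For a subgroup `Y ≤ J` put
`iAug I Y := ⟨σ • y - y : σ ∈ I, y ∈ Y⟩` and `sPlus I p J := ⋃ₙ (iAug I J[pⁿ] ∩ J[p])`.

* `le_iAug_of_devissage` : right exactness of coinvariants in subgroup form.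
* `key_of` : `(K)` for `J` from `(S1⁺)`, `(S2)`, `(OLD)` for `J'` and one `σ₀ ∈ I` acting on the
  `p`-th roots of unity through an exponent `c₀` with `c₀ - 1` prime to `p`.
-/

set_option autoImplicit false

namespace Fermat.Agent.S33.H270

variable {G : Type*} [Group G] {J J' : Type*} [AddCommGroup J] [AddCommGroup J']
  [DistribMulAction G J] [DistribMulAction G J']

/-- The augmentation subgroup `⟨σ • y - y : σ ∈ I, y ∈ Y⟩`. -/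
def iAug (I : Subgroup G) (Y : AddSubgroup J) : AddSubgroup J :=
  AddSubgroup.closure {z | ∃ σ ∈ I, ∃ y ∈ Y, z = σ • y - y}

/-- The `m`-torsion subgroup. -/
def torsSub (J : Type*) [AddCommGroup J] (m : ℕ) : AddSubgroup J :=
  (nsmulAddMonoidHom (α := J) m).ker

/-- `𝒮⁺ = ⋃ₙ (I_aug J[pⁿ] ∩ J[p])` as a predicate. -/
def InSPlus (I : Subgroup G) (p : ℕ) (x : J) : Prop :=
  p • x = 0 ∧ ∃ n : ℕ, x ∈ iAug I (torsSub J (p ^ n))

theorem mem_torsSub {m : ℕ} {x : J} : x ∈ torsSub J m ↔ m • x = 0 := by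
  unfold torsSub
  rw [AddMonoidHom.mem_ker]
  rfl

theorem smul_sub_mem_iAug {I : Subgroup G} {Y : AddSubgroup J} {σ : G} (hσ : σ ∈ I) {y : J}
    (hy : y ∈ Y) : σ • y - y ∈ iAug I Y :=
  AddSubgroup.subset_closure ⟨σ, hσ, y, hy, rfl⟩

theorem iAug_mono {I : Subgroup G} {Y Z : AddSubgroup J} (h : Y ≤ Z) : iAug I Y ≤ iAug I Z := by
  unfold iAug
  apply AddSubgroup.closure_mono
  rintro z ⟨σ, hσ, y, hy, rfl⟩
  exact ⟨σ, hσ, y, h hy, rfl⟩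

/-- `I_aug Y ≤ Y` when `Y` is `I`-stable. -/
theorem iAug_le_self {I : Subgroup G} {Y : AddSubgroup J}
    (hY : ∀ σ ∈ I, ∀ y ∈ Y, σ • y ∈ Y) : iAug I Y ≤ Y := by
  unfold iAug
  rw [AddSubgroup.closure_le]
  rintro z ⟨σ, hσ, y, hy, rfl⟩
  exact Y.sub_mem (hY σ hσ y hy) hy

/-- An `I`-equivariant additive map sends `I_aug Y` into `I_aug (f Y)`. -/
theorem map_mem_iAug {I : Subgroup G} (f : J →+ J')
    (hf : ∀ σ ∈ I, ∀ x : J, f (σ • x) = σ • f x) {Y : AddSubgroup J} {Y' : AddSubgroup J'}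
    (hYY' : ∀ y ∈ Y, f y ∈ Y') {x : J} (hx : x ∈ iAug I Y) : f x ∈ iAug I Y' := by
  unfold iAug at hx
  induction hx using AddSubgroup.closure_induction with
  | mem z hz =>
    obtain ⟨σ, hσ, y, hy, rfl⟩ := hz
    rw [map_sub, hf σ hσ]
    exact smul_sub_mem_iAug hσ (hYY' y hy)
  | zero => rw [map_zero]; exact AddSubgroup.zero_mem _
  | add a b _ _ ha hb => rw [map_add]; exact AddSubgroup.add_mem _ ha hb
  | neg a _ ha => rw [map_neg]; exact AddSubgroup.neg_mem _ ha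

/-- Every element of `I_aug (f Y)` is the image of an element of `I_aug Y`. -/
theorem exists_mem_iAug_of_mem_iAug_map {I : Subgroup G} (f : J →+ J')
    (hf : ∀ σ ∈ I, ∀ x : J, f (σ • x) = σ • f x) {Y : AddSubgroup J} {z : J'}
    (hz : z ∈ iAug I (Y.map f)) : ∃ x ∈ iAug I Y, f x = z := by
  unfold iAug at hz
  induction hz using AddSubgroup.closure_induction with
  | mem w hw =>
    obtain ⟨σ, hσ, y', hy', rfl⟩ := hw
    obtain ⟨y, hy, rfl⟩ := AddSubgroup.mem_map.mp hy'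
    exact ⟨σ • y - y, smul_sub_mem_iAug hσ hy, by rw [map_sub, hf σ hσ]⟩
  | zero => exact ⟨0, AddSubgroup.zero_mem _, map_zero f⟩
  | add a b _ _ ha hb =>
    obtain ⟨x, hx, rfl⟩ := ha
    obtain ⟨y, hy, rfl⟩ := hb
    exact ⟨x + y, AddSubgroup.add_mem _ hx hy, map_add f x y⟩
  | neg a _ ha =>
    obtain ⟨x, hx, rfl⟩ := ha
    exact ⟨-x, AddSubgroup.neg_mem _ hx, map_neg f x⟩

/-- **Dévissage** (right exactness of `I`-coinvariants, subgroup form).  `B` an `I`-stable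
subgroup, `f` an `I`-equivariant map; if `B ∩ ker f` and `f B` are generated by their
augmentation, so is `B`. -/
theorem le_iAug_of_devissage {I : Subgroup G} (f : J →+ J')
    (hf : ∀ σ ∈ I, ∀ x : J, f (σ • x) = σ • f x) {A B : AddSubgroup J}
    (hB : ∀ σ ∈ I, ∀ y ∈ B, σ • y ∈ B)
    (hAB : ∀ b ∈ B, f b = 0 → b ∈ A) (hAle : A ≤ B) (hA : A ≤ iAug I A)
    (hC : B.map f ≤ iAug I (B.map f)) : B ≤ iAug I B := by
  intro b hb
  obtain ⟨z, hz, hzb⟩ := exists_mem_iAug_of_mem_iAug_map f hf (hC (AddSubgroup.mem_map_of_mem f hb))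
  have hzB : z ∈ B := iAug_le_self hB hz
  have hbz : b - z ∈ A := hAB _ (B.sub_mem hb hzB) (by rw [map_sub, hzb, sub_self])
  have h1 : b - z ∈ iAug I B := iAug_mono hAle (hA hbz)
  have h2 := AddSubgroup.add_mem _ h1 hz
  rwa [sub_add_cancel] at h2

/-- A subgroup of `J[p]` on which one `σ₀ ∈ I` acts by a scalar `c₀` with `d (c₀ - 1) ≡ 1 mod p`
is generated by its augmentation. -/
theorem le_iAug_of_scalar {I : Subgroup G} {p : ℕ} {Y : AddSubgroup J}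
    (hp : ∀ y ∈ Y, p • y = 0) {σ₀ : G} (hσ₀ : σ₀ ∈ I) {c₀ d : ℕ}
    (hcd : d * c₀ ≡ d + 1 [MOD p]) (hact : ∀ y ∈ Y, σ₀ • y = c₀ • y) : Y ≤ iAug I Y := by
  intro y hy
  have hdy : d • y ∈ Y := Y.nsmul_mem hy d
  have h1 : σ₀ • (d • y) - d • y ∈ iAug I Y := smul_sub_mem_iAug hσ₀ hdy
  have h2 : σ₀ • (d • y) - d • y = y := by
    rw [hact _ hdy, smul_smul, sub_eq_iff_eq_add]
    -- `(c₀ * d) • y = y + d • y` since `c₀ d ≡ d + 1 mod p` and `p • y = 0`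
    have h4 : ∀ a : ℕ, a • y = (a % p) • y := by
      intro a
      conv_lhs => rw [← Nat.div_add_mod a p]
      rw [add_smul, mul_comm, mul_smul, hp y hy, smul_zero, zero_add]
    have h3 : ∀ a b : ℕ, a ≡ b [MOD p] → a • y = b • y := by
      intro a b hab
      rw [h4 a, h4 b, hab]
    rw [h3 (c₀ * d) (d + 1) (by rwa [mul_comm]), add_smul, one_smul, add_comm]
  rwa [h2] at h1

/-- The image of `𝒮⁺(J)` under an equivariant map lies in `𝒮⁺(J')`. -/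
theorem InSPlus.map {I : Subgroup G} {p : ℕ} (f : J →+ J')
    (hf : ∀ σ ∈ I, ∀ x : J, f (σ • x) = σ • f x) {x : J} (hx : InSPlus I p x) :
    InSPlus I p (f x) := by
  obtain ⟨hpx, n, hn⟩ := hx
  refine ⟨by rw [← map_nsmul, hpx, map_zero], n, ?_⟩
  refine map_mem_iAug f hf (fun y hy => ?_) hn
  rw [mem_torsSub] at hy ⊢
  rw [← map_nsmul, hy, map_zero]

/-- **(K) from (S1⁺) + (S2) + (OLD)**, abstract form with arbitrary predicates `SP`, `SP'`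
in the role of `𝒮⁺(J)`, `𝒮⁺(J')`.

* `hmapα`, `hmapβ` : `α`, `β` send `𝒮⁺(J)` into `𝒮⁺(J')`;
* `h𝒮` : (S1⁺) `𝒮⁺(J) ⊆ 𝒮`;
* `hS2` : (S2) on the new part of `𝒮`, `σ₀` acts by `c₀`;
* `hOLD` : (OLD) every `G`-stable subgroup of `𝒮⁺(J')` is generated by its augmentation.
-/
theorem key_of_pred {I : Subgroup G} {p : ℕ} (α β : J →+ J')
    (hα : ∀ (σ : G) (x : J), α (σ • x) = σ • α x)
    (hβ : ∀ (σ : G) (x : J), β (σ • x) = σ • β x)
    {σ₀ : G} (hσ₀ : σ₀ ∈ I) {c₀ d : ℕ} (hcd : d * c₀ ≡ d + 1 [MOD p])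
    (SP : J → Prop) (SP' : J' → Prop) (hSPp : ∀ x, SP x → p • x = 0)
    (hmapα : ∀ x, SP x → SP' (α x)) (hmapβ : ∀ x, SP x → SP' (β x))
    (𝒮 : Set J) (h𝒮 : ∀ x : J, SP x → x ∈ 𝒮)
    (hS2 : ∀ x ∈ 𝒮, p • x = 0 → α x = 0 → β x = 0 → σ₀ • x = c₀ • x)
    (hOLD : ∀ Y' : AddSubgroup J', (∀ (σ : G), ∀ y ∈ Y', σ • y ∈ Y') →
      (∀ y ∈ Y', SP' y) → Y' ≤ iAug I Y')
    (Y : AddSubgroup J) (hYG : ∀ (σ : G), ∀ y ∈ Y, σ • y ∈ Y) (hY : ∀ y ∈ Y, SP y) :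
    Y ≤ iAug I Y := by
  -- the three steps of the filtration `Y ⊇ Y₁ = Y ∩ ker α ⊇ Y₂ = Y₁ ∩ ker β`
  set Y₁ : AddSubgroup J := Y ⊓ α.ker with hY₁
  set Y₂ : AddSubgroup J := Y₁ ⊓ β.ker with hY₂
  have hY₁G : ∀ (σ : G), ∀ y ∈ Y₁, σ • y ∈ Y₁ := by
    intro σ y hy
    rw [hY₁, AddSubgroup.mem_inf, AddMonoidHom.mem_ker] at hy ⊢
    exact ⟨hYG σ y hy.1, by rw [hα, hy.2, smul_zero]⟩
  have h2 : Y₂ ≤ iAug I Y₂ := by
    refine le_iAug_of_scalar (p := p) (fun y hy => ?_) hσ₀ hcd (fun y hy => ?_)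
    · exact hSPp y (hY y hy.1.1)
    · have hy1 : y ∈ Y := hy.1.1
      exact hS2 y (h𝒮 y (hY y hy1)) (hSPp y (hY y hy1)) (AddMonoidHom.mem_ker.mp hy.1.2)
        (AddMonoidHom.mem_ker.mp hy.2)
  have h1 : Y₁ ≤ iAug I Y₁ := by
    refine le_iAug_of_devissage (A := Y₂) (B := Y₁) β (fun σ _ x => hβ σ x)
      (fun σ _ y hy => hY₁G σ y hy)
      (fun b hb hb0 => AddSubgroup.mem_inf.mpr ⟨hb, AddMonoidHom.mem_ker.mpr hb0⟩)
      inf_le_left h2 ?_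
    refine hOLD _ ?_ ?_
    · rintro σ _ ⟨y, hy, rfl⟩
      exact ⟨σ • y, hY₁G σ y hy, hβ σ y⟩
    · rintro _ ⟨y, hy, rfl⟩
      exact hmapβ y (hY y hy.1)
  refine le_iAug_of_devissage (A := Y₁) (B := Y) α (fun σ _ x => hα σ x)
    (fun σ _ y hy => hYG σ y hy)
    (fun b hb hb0 => AddSubgroup.mem_inf.mpr ⟨hb, AddMonoidHom.mem_ker.mpr hb0⟩)
    inf_le_left h1 ?_
  refine hOLD _ ?_ ?_
  · rintro σ _ ⟨y, hy, rfl⟩
    exact ⟨σ • y, hYG σ y hy, hα σ y⟩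
  · rintro _ ⟨y, hy, rfl⟩
    exact hmapα y (hY y hy)

/-- **(K) from (S1⁺) + (S2) + (OLD)**, abstract form with `𝒮⁺ = InSPlus`. -/
theorem key_of {I : Subgroup G} {p : ℕ} (α β : J →+ J')
    (hα : ∀ (σ : G) (x : J), α (σ • x) = σ • α x)
    (hβ : ∀ (σ : G) (x : J), β (σ • x) = σ • β x)
    {σ₀ : G} (hσ₀ : σ₀ ∈ I) {c₀ d : ℕ} (hcd : d * c₀ ≡ d + 1 [MOD p])
    (𝒮 : Set J) (h𝒮 : ∀ x : J, InSPlus I p x → x ∈ 𝒮)
    (hS2 : ∀ x ∈ 𝒮, p • x = 0 → α x = 0 → β x = 0 → σ₀ • x = c₀ • x)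
    (hOLD : ∀ Y' : AddSubgroup J', (∀ (σ : G), ∀ y ∈ Y', σ • y ∈ Y') →
      (∀ y ∈ Y', InSPlus I p y) → Y' ≤ iAug I Y')
    (Y : AddSubgroup J) (hYG : ∀ (σ : G), ∀ y ∈ Y, σ • y ∈ Y) (hY : ∀ y ∈ Y, InSPlus I p y) :
    Y ≤ iAug I Y :=
  key_of_pred α β hα hβ hσ₀ hcd (InSPlus I p) (InSPlus I p) (fun _ hx => hx.1)
    (fun _ hx => hx.map α (fun σ _ x => hα σ x)) (fun _ hx => hx.map β (fun σ _ x => hβ σ x))
    𝒮 h𝒮 hS2 hOLD Y hYG hY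

end Fermat.Agent.S33.H270
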