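import Fermat.Agent.S33.Spec2
import Fermat.Agent.S33.H270.KeyCore
import Fermat.Agent.S59.H659.Cyclo

/-!
# S33, leaf KEY in the frozen shape of `S33/Spec2.lean`  — helper270

`keyStatement : S33.OrdFilStatement → S33.OldAugStatement → S33.KeyStatement`  (VERBATIM Spec2).

Proof: dévissage `KeyCore.key_of` along `Y ⊇ Y ∩ ker α ⊇ Y ∩ ker α ∩ ker β`; on the last step
inertia acts through the cyclotomic character by (S1⁺) + (S2), and some `σ₀ ∈ I_P` has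
`χ(σ₀) ≢ 1 mod p` (total ramification of `ℚ(ζ_p)` at `p`, `S59.H659.exists_inertia_cycExp_ne_one`).
-/

set_option autoImplicit false
set_option linter.style.haveILetI false

namespace Fermat.Agent.S33.H270

/-- The Spec2 vocabulary is the `KeyCore` vocabulary. -/
theorem spec_iAug_eq {G : Type*} [Group G] {J : Type*} [AddCommGroup J] [DistribMulAction G J]
    (I : Subgroup G) (Y : AddSubgroup J) : Fermat.Agent.S33.iAug I Y = iAug I Y := rfl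

theorem spec_inSPlus_iff {G : Type*} [Group G] {J : Type*} [AddCommGroup J]
    [DistribMulAction G J] (I : Subgroup G) (p : ℕ) (x : J) :
    Fermat.Agent.S33.InSPlus I p x ↔ InSPlus I p x := Iff.rfl

/-- DETI in the form used by `KeyCore`: some `σ₀ ∈ I_P` acts on `μ_p` through an exponent `c₀`
with `d * c₀ ≡ d + 1 mod p` for some `d`. -/
theorem exists_inertia_scalar_spec {p : ℕ} (hp : p.Prime) (hp2 : p ≠ 2)
    (P : ValuationSubring (AlgebraicClosure ℚ)) (hP : P.LiesOverPrime p) :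
    ∃ σ₀ ∈ P.inertiaSubgroupIn ℚ, ∃ c₀ d : ℕ,
      (∀ ζ : AlgebraicClosure ℚ, ζ ^ p = 1 → σ₀ ζ = ζ ^ c₀) ∧ d * c₀ ≡ d + 1 [MOD p] := by
  obtain ⟨σ₀, hσ₀, hne⟩ := Fermat.Agent.S59.H659.exists_inertia_cycExp_ne_one p hp hp2 P hP
  obtain ⟨c₀, hc₀⟩ := Fermat.Agent.S59.H659.exists_isCycExp p hp.ne_zero σ₀
  have hc1 : ¬ c₀ ≡ 1 [MOD p] := hne c₀ hc₀
  haveI : Fact p.Prime := ⟨hp⟩
  have hu : ((c₀ : ZMod p) - 1) ≠ 0 := by
    intro h
    apply hc1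
    rw [← ZMod.natCast_eq_natCast_iff]
    rw [sub_eq_zero] at h
    rw [h, Nat.cast_one]
  refine ⟨σ₀, hσ₀, c₀, (((c₀ : ZMod p) - 1)⁻¹).val, hc₀, ?_⟩
  rw [← ZMod.natCast_eq_natCast_iff]
  push_cast
  rw [ZMod.natCast_zmod_val]
  have h1 : ((c₀ : ZMod p) - 1)⁻¹ * ((c₀ : ZMod p) - 1) = 1 := inv_mul_cancel₀ hu
  linear_combination h1

/-- **KEY**, frozen Spec2 shape. -/
theorem keyStatement (hNEW : Fermat.Agent.S33.OrdFilStatement)
    (hOLD : Fermat.Agent.S33.OldAugStatement) : Fermat.Agent.S33.KeyStatement := by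
  intro p N _ hp hp2 hN hN2 P hP
  obtain ⟨M', rfl⟩ := hN
  have hM' : M' ≠ 0 := by
    rintro rfl
    exact NeZero.ne (p * 0) (mul_zero p)
  haveI : NeZero M' := ⟨hM'⟩
  have hpM' : ¬ p ∣ M' := by
    rintro ⟨k, rfl⟩
    exact hN2 ⟨k, by ring⟩
  obtain ⟨α, β, hα, hβ, hfil⟩ := hNEW p M' hp hp2 hpM'
  obtain ⟨𝒮, hS1, hS2⟩ := hfil P hP
  obtain ⟨σ₀, hσ₀, c₀, d, hc₀, hcd⟩ := exists_inertia_scalar_spec hp hp2 P hP
  intro Y hYG hY
  rw [spec_iAug_eq]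
  refine key_of (I := P.inertiaSubgroupIn ℚ) (p := p) α β hα hβ hσ₀ hcd 𝒮
    (fun x hx => hS1 x hx) (fun x hx hpx hαx hβx => hS2 x hx hpx hαx hβx σ₀ hσ₀ c₀ hc₀)
    (fun Y' hY'G hY' => hOLD p M' hp hp2 hpM' P hP Y' hY'G hY') Y hYG hY

end Fermat.Agent.S33.H270
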